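/-
Fermat/Agent/MW/Inst96/RepUnique.lean  (helper96, programme MW = S17)

**Uniqueness of the representing object of a sub-Picard functor**: two designations `D₁`, `D₂`
representing the same `SubPicCondition` are isomorphic over the base
(`isoOfRepresents h₁ h₂ : D₁.P ≅ D₂.P`, compatible with `toBase`).  Consequence: the relative
dimension of the Jacobian (brick DIMJ, stated for ONE representing object) holds for EVERY
representing object (`smoothOfRelativeDimension_of_represents`).
-/
import Fermat.Agent.AV.CCube32.Classify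

set_option autoImplicit false
set_option linter.style.haveILetI false
set_option linter.unusedSectionVars false

noncomputable section

universe u

open CategoryTheory CategoryTheory.Limits AlgebraicGeometry AlgebraicGeometry.RelPicard
  NeronModelInfra GoodReductionJacobian

namespace Fermat.Agent.MW.Inst96.RepUnique

open Fermat.Agent.AV.CCube32

variable {R : Type u} [CommRing R] {C : Scheme.{u}} {c : C ⟶ Spec (CommRingCat.of R)}
  {ε : SchemeHomOver (𝟙 (Spec (CommRingCat.of R))) c} {P : SubPicCondition c ε}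
  {D₁ D₂ : RelativePic0Designation R c}
  (h₁ : RepresentsRelSubPic c ε P D₁) (h₂ : RepresentsRelSubPic c ε P D₂)

/-- The comparison morphism `D₁.P ⟶ D₂.P` classifying the Poincaré bundle of `D₁`. -/
def cmp : SchemeHomOver D₁.toBase D₂.toBase :=
  h₂.classify D₁.toBase h₁.poincare h₁.poincare_mem

theorem cmp_spec :
    Nonempty ((h₂.poincare.pullbackAlong (cmp h₁ h₂)).L ≅ h₁.poincare.L) :=
  h₂.classify_spec D₁.toBase h₁.poincare h₁.poincare_mem

theorem postComp_cmp_cmp :
    postComp (cmp h₂ h₁) (cmp h₁ h₂) =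
      (⟨𝟙 D₁.P, Category.id_comp _⟩ : SchemeHomOver D₁.toBase D₁.toBase) := by
  apply h₁.ext_of_iso
  obtain ⟨e21⟩ := cmp_spec h₂ h₁
  obtain ⟨e12⟩ := cmp_spec h₁ h₂
  exact ⟨(pullbackAlongCompIso h₁.poincare (cmp h₂ h₁) (cmp h₁ h₂)).symm ≪≫
    (Scheme.Modules.pullback (baseChangeSnd c (cmp h₁ h₂))).mapIso e21 ≪≫ e12 ≪≫
    (pullbackAlongIdIso h₁.poincare).symm⟩

theorem cmp_comp_cmp : (cmp h₁ h₂).1 ≫ (cmp h₂ h₁).1 = 𝟙 D₁.P :=
  congrArg Subtype.val (postComp_cmp_cmp h₁ h₂)

/-- **Two representing objects are isomorphic.** -/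
def isoOfRepresents : D₁.P ≅ D₂.P where
  hom := (cmp h₁ h₂).1
  inv := (cmp h₂ h₁).1
  hom_inv_id := cmp_comp_cmp h₁ h₂
  inv_hom_id := cmp_comp_cmp h₂ h₁

theorem isoOfRepresents_hom_toBase : (isoOfRepresents h₁ h₂).hom ≫ D₂.toBase = D₁.toBase :=
  (cmp h₁ h₂).2

theorem isoOfRepresents_inv_toBase : (isoOfRepresents h₁ h₂).inv ≫ D₁.toBase = D₂.toBase :=
  (cmp h₂ h₁).2

include h₁ h₂ in
/-- **The relative dimension does not depend on the representing object.** -/
theorem smoothOfRelativeDimension_of_represents (n : ℕ)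
    [hn : SmoothOfRelativeDimension n D₂.toBase] : SmoothOfRelativeDimension n D₁.toBase := by
  have h0 : SmoothOfRelativeDimension (0 + n) ((isoOfRepresents h₁ h₂).hom ≫ D₂.toBase) :=
    inferInstance
  rw [zero_add, isoOfRepresents_hom_toBase] at h0
  exact h0

end Fermat.Agent.MW.Inst96.RepUnique
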