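/-
Fermat/Agent/MW/Inst96/SquareCube.lean  (helper96, programme MW = S17, brick INST-2c "SQ-J/CUBE-J",
generic glue)

**Theorem of the square (exact) and the doubling formula (up to `δ`-torsion) in PICARD and in
DIVISOR form, for ALL `K`-points**, for a commutative group law `G` on `f : A ⟶ Spec K` satisfying
the hypotheses of S26 (`AbelianSchemePropertyBundle`), `K` algebraically closed, given a list `l`
of pointed curves through the origin with dominant sum map (brick CURV / Jacobi inversion) whose
Picard functors are representable (`hrep`, i.e. S25).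

This file only glues landed bricks:
* `Cube82.inS_sumPt_point` (helper82) + `ClosedPtsCurv31.exists_Kpoint_sumMap_eq` (helper31)
  ⟹ `inS_Kpoint` : every `K`-point satisfies the functorial square predicate `InS`
  (both for helper38's `Pic38.picCalc` and for helper49's `picCalc38`);
* `Cube82.translate_mul_translate_inv` ⟹ `pic_square`;
* `Inst49.SquareDiv.exists_div_square` ⟹ `exists_div_square` (no `InS` hypothesis left);
* `Inst49.Cover.exists_generates_sq` ⟹ `exists_generates_sq` (no `InS` hypothesis left);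
* `Pic38.pow_map_schemeNsmul_of_rep` (helper38) ⟹ `pic_dbl_pow`, `exists_div_nsmul`,
  `exists_div_dbl` with `δ = Pic38.sumDegree G hA l`.
The outputs `exists_div_square`, `exists_div_dbl` are exactly the inputs `hsq`, `hcube` of
`Inst73.sectionsOf_square`, `Inst73.sectionsOf_cube`.
-/
import Fermat.Agent.AV.Pic38.Calc
import Fermat.Agent.MW.Inst49.Cover

set_option autoImplicit false
set_option linter.style.haveILetI false
set_option linter.unusedSectionVars false

noncomputable section

universe u

open CategoryTheory CategoryTheory.Limits AlgebraicGeometry AlgebraicGeometry.RelPicard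
  NeronModelInfra GoodReductionJacobian

namespace Fermat.Agent.MW.Inst96.SquareCube

open Fermat.Agent.AV Fermat.Agent.AV.Cube82 Fermat.Agent.AV.PicDiv86
  Fermat.Agent.AV.Fact49.PicCalcInst Fermat.Agent.AV.Curv33 Fermat.Agent.MW.Inst73

variable {K : Type u} [Field K] [IsAlgClosed K] {A : Scheme.{u}}
  {f : A ⟶ Spec (CommRingCat.of K)} (G : RelativeGroupLaw K f) (hc : G.IsCommutative)
  (hA : AbelianSchemePropertyBundle K f)
  (l : List (CurveTo f (G.one (𝟙 (Spec (CommRingCat.of K)))))) [IsDominant (sumMap G l)]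
  (hrep : ∀ X ∈ l, ∃ (D : RelativePic0Designation K X.c)
      (_ : RepresentsRelSubPic X.c X.ε (algEquivZeroCut X.c X.ε) D),
      IsSeparated D.toBase ∧ LocallyOfFiniteType D.toBase)

include hc hA hrep in
/-- **Every `K`-point satisfies the functorial theorem of the square** (`Pic38.picCalc` form). -/
theorem inS_Kpoint (ℓ : Pic38.Pic A) (a : SchemeHomOver (𝟙 (Spec (CommRingCat.of K))) f) :
    InS Pic38.picCalc G hc ℓ (𝟙 _) a := by
  haveI := hA.smooth
  haveI := hA.proper
  haveI : IsIntegral A := Var81.isIntegral_of_bundle f hA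
  haveI : IsIntegral (pullback f f) :=
    Var81.isIntegral_of_isPullback f f (IsPullback.of_hasPullback f f)
  obtain ⟨v, rfl⟩ := ClosedPtsCurv31.exists_Kpoint_sumMap_eq G l a
  exact inS_sumPt_point Pic38.picCalc G hc ℓ l hrep v

include hc hA hrep in
/-- **Every `K`-point satisfies the functorial theorem of the square** (`picCalc38` form, the
hypothesis `hS` of `Inst49.Cover.exists_generates_sq` and `Inst49.JFamily.exists_geomFamily`). -/
theorem inS_Kpoint38 (ℓ : Pic38.Pic A) (a : SchemeHomOver (𝟙 (Spec (CommRingCat.of K))) f) :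
    InS picCalc38 G hc ℓ (𝟙 _) a :=
  inS_Kpoint G hc hA l hrep ℓ a

include hc hA hrep in
/-- **Theorem of the square, Picard form, all `K`-points**: `t_a^* ℓ · t_{-a}^* ℓ = ℓ²`. -/
theorem pic_square (ℓ : Pic38.Pic A) (a : SchemeHomOver (𝟙 (Spec (CommRingCat.of K))) f) :
    Pic38.Pic.map (translate G a) ℓ * Pic38.Pic.map (translate G (G.inv (𝟙 _) a)) ℓ = ℓ ^ 2 :=
  translate_mul_translate_inv Pic38.picCalc G hc ℓ a (inS_Kpoint G hc hA l hrep ℓ a)

include hc hA hrep in
/-- **Theorem of the square, Picard form, two `K`-points**: `t_{a+b}^* ℓ · ℓ = t_a^* ℓ · t_b^* ℓ`. -/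
theorem pic_square_add (ℓ : Pic38.Pic A)
    (a b : SchemeHomOver (𝟙 (Spec (CommRingCat.of K))) f) :
    Pic38.Pic.map (translate G (G.mul (𝟙 _) a b)) ℓ * ℓ =
      Pic38.Pic.map (translate G a) ℓ * Pic38.Pic.map (translate G b) ℓ :=
  theorem_of_square Pic38.picCalc G hc ℓ a b (inS_Kpoint G hc hA l hrep ℓ a)

section Divisors

variable [IsIntegral A]

include hc hA hrep in
/-- **Theorem of the square, divisor form, all `K`-points**:
`t_a^* D · t_{-a}^* D = div h · (D · D)`  (input `hsq` of `Inst73.sectionsOf_square`). -/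
theorem exists_div_square (D : CaDiv A) (a : SchemeHomOver (𝟙 (Spec (CommRingCat.of K))) f) :
    ∃ h : A.functionFieldˣ,
      CaDiv.pullback (translate G a) D * CaDiv.pullback (translate G (G.inv (𝟙 _) a)) D =
        CaDiv.div h * (D * D) :=
  Fermat.Agent.MW.Inst49.SquareDiv.exists_div_square G hc D a
    (inS_Kpoint38 G hc hA l hrep (cl D) a)

include hc hA hrep in
/-- **INST-2b without hypothesis**: for an effective divisor `D`, `O(D · D)` is generated by
finitely many rational functions. -/
theorem exists_generates_sq (D : CaDiv A) (hD : D.IsEffective) :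
    ∃ (n : ℕ) (s : Fin n → A.functionField), Generates s (D * D) := by
  haveI := hA.proper
  haveI : CompactSpace A := QuasiCompact.compactSpace_of_compactSpace f
  exact Fermat.Agent.MW.Inst49.Cover.exists_generates_sq G hc D hD
    (fun a => inS_Kpoint38 G hc hA l hrep (cl D) a)

include hc hrep in
/-- **`[n]^* ℓ` up to `δ`-torsion, Picard form** (`δ` the degree of the sum map). -/
theorem pic_nsmul_pow (ℓ : Pic38.Pic A)
    (hsym : Pic38.Pic.map (G.inv f RelativeGroupLaw.idPoint).1 ℓ = ℓ) (n : ℕ) :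
    Pic38.Pic.map (G.schemeNsmul n) ℓ ^ Pic38.sumDegree G hA l =
      ℓ ^ (Pic38.sumDegree G hA l * n ^ 2) :=
  Pic38.pow_map_schemeNsmul_of_rep G hc hA l hrep ℓ hsym n

include hc hrep in
/-- **`[2]^* ℓ` up to `δ`-torsion, Picard form**: `([2]^* ℓ)^δ = ℓ^(4δ)`. -/
theorem pic_dbl_pow (ℓ : Pic38.Pic A)
    (hsym : Pic38.Pic.map (G.inv f RelativeGroupLaw.idPoint).1 ℓ = ℓ) :
    Pic38.Pic.map (G.schemeNsmul 2) ℓ ^ Pic38.sumDegree G hA l =
      ℓ ^ (4 * Pic38.sumDegree G hA l) := by
  rw [pic_nsmul_pow G hc hA l hrep ℓ hsym 2]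
  congr 1
  ring

include hc hrep in
/-- **`[n]^* D` up to `δ`-torsion, divisor form**, for `D` symmetric up to linear equivalence. -/
theorem exists_div_nsmul (D : CaDiv A)
    (hsym : Pic38.Pic.map (G.inv f RelativeGroupLaw.idPoint).1 (cl D) = cl D)
    (n : ℕ) [IsDominant (G.schemeNsmul n)] :
    ∃ h : A.functionFieldˣ,
      CaDiv.pullback (G.schemeNsmul n) D ^ Pic38.sumDegree G hA l =
        CaDiv.div h * D ^ (Pic38.sumDegree G hA l * n ^ 2) :=
  Fermat.Agent.MW.Inst49.SquareDiv.exists_div_of_pow_map_eq D (G.schemeNsmul n) _ _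
    (pic_nsmul_pow G hc hA l hrep (cl D) hsym n)

include hc hrep in
/-- **`[2]^* D` up to `δ`-torsion, divisor form**: `([2]^* D)^δ = div h · D^(4δ)`
(input `hcube` of `Inst73.sectionsOf_cube` with `d = δ`, `m = 4 δ`). -/
theorem exists_div_dbl (D : CaDiv A)
    (hsym : Pic38.Pic.map (G.inv f RelativeGroupLaw.idPoint).1 (cl D) = cl D)
    [IsDominant (G.schemeNsmul 2)] :
    ∃ h : A.functionFieldˣ,
      CaDiv.pullback (G.schemeNsmul 2) D ^ Pic38.sumDegree G hA l =
        CaDiv.div h * D ^ (4 * Pic38.sumDegree G hA l) :=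
  Fermat.Agent.MW.Inst49.SquareDiv.exists_div_of_pow_map_eq D (G.schemeNsmul 2) _ _
    (pic_dbl_pow G hc hA l hrep (cl D) hsym)

/-- Symmetry of the class from symmetry of the divisor. -/
theorem map_inv_cl_of_pullback_eq (D : CaDiv A)
    [IsDominant (G.inv f RelativeGroupLaw.idPoint).1]
    (hsym : CaDiv.pullback (G.inv f RelativeGroupLaw.idPoint).1 D = D) :
    Pic38.Pic.map (G.inv f RelativeGroupLaw.idPoint).1 (cl D) = cl D := by
  rw [map_cl, hsym]

end Divisors

end Fermat.Agent.MW.Inst96.SquareCube
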