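/-
Fermat/Agent/MW/Inst96/SquareCubeJ.lean  (helper96, programme MW = S17, brick INST-2c "SQ-J/CUBE-J",
instance half)

**The theorem of the square and the doubling formula, unconditionally** (S25 discharges the
representability hypothesis `hrep`), and **their instance for the Jacobian** `(D'.toBase, law h)`
of the S25 stack (helper84's `PicBridge84.SchemeSide.law`), with the list of curves given by Jacobi
inversion (helper6's `F5_6.JacobiCurv`).

* `hrep_of_s25`                : `hrep` for any list of pointed curves;
* `exists_div_square_of_curv`, `exists_generates_sq_of_curv`, `exists_div_dbl_of_curv` :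
  generic `(A, f, G)` with `CurvStatement G N` (no list, no `hrep`);
* `bundle_J`, `isIntegral_J`   : the Jacobian satisfies the hypotheses of S26 / is integral;
* `exists_div_square_J`        : `t_a^* E · t_{-a}^* E = div h' · (E · E)` on the Jacobian, all `a`;
* `exists_generates_sq_J`      : `O(E · E)` is generated by finitely many functions (`E` effective);
* `exists_div_dbl_J`           : `∃ l` (`g` curves, dominant sum map) with
  `([2]^* E)^δ = div h' · E^(4δ)`, `δ = Pic38.sumDegree (law h) _ l`, for all symmetric `E`;
* `jF1`, `jList h`, `deltaJ h _ _ _` : a CHOSEN one-point family, the list of `g` copies of the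
  normalised Abel-Jacobi curve, and the degree `δ_J` of its sum map `C^g ⟶ J`;
* `hS_J`                       : `∀ ℓ a, InS picCalc38 (law h) _ ℓ (𝟙 _) a`   (input `hS` of
  `Inst49.Cover.exists_generates_sq` and of `Inst49.JFamily.exists_geomFamily`);
* `hcube_J`                    : `∀ ℓ` symmetric, `([2]^* ℓ)^δ_J = ℓ^(δ_J · 2²)`   (input `hcube`);
  `0 < deltaJ` is in `SquareCubeJPos.lean` (brick GENFIN + DIMJ).
-/
import Fermat.Agent.MW.Inst96.SquareCube
import Fermat.Agent.AV.CCube32.CurveCube
import Fermat.Agent.AV.F5_6.JacobiCurv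

set_option autoImplicit false
set_option linter.style.haveILetI false
set_option linter.unusedSectionVars false

noncomputable section

universe u

open CategoryTheory CategoryTheory.Limits AlgebraicGeometry AlgebraicGeometry.RelPicard
  NeronModelInfra GoodReductionJacobian

namespace Fermat.Agent.MW.Inst96.SquareCubeJ

open Fermat.Agent.AV Fermat.Agent.AV.Cube82 Fermat.Agent.AV.PicDiv86
  Fermat.Agent.AV.Curv33 Fermat.Agent.MW.Inst73 Fermat.Agent.MW.Inst96

/-! ### `hrep` from S25 -/

/-- **S25 discharges `hrep`**: the Picard functor of every pointed smooth proper integral curve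
over an algebraically closed field is representable by a separated scheme locally of finite
type. -/
theorem hrep_of_s25 {K : Type u} [Field K] [IsAlgClosed K] {A : Scheme.{u}}
    {f : A ⟶ Spec (CommRingCat.of K)} {e : SchemeHomOver (𝟙 (Spec (CommRingCat.of K))) f}
    (l : List (CurveTo f e)) :
    ∀ X ∈ l, ∃ (D : RelativePic0Designation K X.c)
      (_ : RepresentsRelSubPic X.c X.ε (algEquivZeroCut X.c X.ε) D),
      IsSeparated D.toBase ∧ LocallyOfFiniteType D.toBase := by
  intro X _
  obtain ⟨D, ⟨h⟩, hp⟩ := CCube32.exists_jacobian X.c X.ε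
  exact ⟨D, h, inferInstance, inferInstance⟩

/-! ### Generic form, from `CurvStatement` -/

section Generic

variable {K : Type u} [Field K] [IsAlgClosed K] {A : Scheme.{u}}
  {f : A ⟶ Spec (CommRingCat.of K)} (G : RelativeGroupLaw K f) (hc : G.IsCommutative)
  (hA : AbelianSchemePropertyBundle K f) {N : ℕ} (hcurv : CurvStatement G N) [IsIntegral A]

include hc hA hcurv in
/-- Theorem of the square, divisor form, all `K`-points (no hypothesis left). -/
theorem exists_div_square_of_curv (D : CaDiv A)
    (a : SchemeHomOver (𝟙 (Spec (CommRingCat.of K))) f) :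
    ∃ h : A.functionFieldˣ,
      CaDiv.pullback (translate G a) D * CaDiv.pullback (translate G (G.inv (𝟙 _) a)) D =
        CaDiv.div h * (D * D) := by
  obtain ⟨l, -, hdom⟩ := hcurv
  haveI := hdom
  exact SquareCube.exists_div_square G hc hA l (hrep_of_s25 l) D a

include hc hA hcurv in
/-- `O(D · D)` is generated by finitely many rational functions, `D` effective. -/
theorem exists_generates_sq_of_curv (D : CaDiv A) (hD : D.IsEffective) :
    ∃ (n : ℕ) (s : Fin n → A.functionField), Generates s (D * D) := by
  obtain ⟨l, -, hdom⟩ := hcurv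
  haveI := hdom
  exact SquareCube.exists_generates_sq G hc hA l (hrep_of_s25 l) D hD

include hc hcurv in
/-- Doubling formula up to torsion, divisor form: there is a list of `N` curves with dominant sum
map, of degree `δ`, with `([2]^* D)^δ = div h · D^(4δ)` for every symmetric `D`. -/
theorem exists_div_dbl_of_curv [IsDominant (G.schemeNsmul 2)] :
    ∃ (l : List (CurveTo f (G.one (𝟙 (Spec (CommRingCat.of K)))))) (_ : IsDominant (sumMap G l)),
      l.length = N ∧ ∀ D : CaDiv A,
        Pic38.Pic.map (G.inv f RelativeGroupLaw.idPoint).1 (cl D) = cl D →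
        ∃ h : A.functionFieldˣ,
          CaDiv.pullback (G.schemeNsmul 2) D ^ Pic38.sumDegree G hA l =
            CaDiv.div h * D ^ (4 * Pic38.sumDegree G hA l) := by
  obtain ⟨l, hl, hdom⟩ := hcurv
  haveI := hdom
  exact ⟨l, hdom, hl, fun D hsym => SquareCube.exists_div_dbl G hc hA l (hrep_of_s25 l) D hsym⟩

end Generic

/-! ### The Jacobian -/

section Jacobian

open Fermat.Agent.Jac Fermat.Agent.Jac.PointsBridge79 Fermat.Agent.Jac.PointsBridge79Shell
  Fermat.Agent.Jac.FinalWiring41 Fermat.Agent.Jac.AbelJacobi73
  Fermat.Agent.AV.PicBridge84.SchemeSide Fermat.Agent.AV.F5_6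

variable {k : Type u} [Field k] [IsAlgClosed k] {C : Scheme.{u}}
  {c : C ⟶ Spec (CommRingCat.of k)} [IsIntegral C]
  {ε : SchemeHomOver (𝟙 (Spec (CommRingCat.of k))) c} {cc : CurveCharts c ε}
  {D : AffineDictionary cc} {D' : RelativePic0Designation k c}
  (h : RepresentsRelSubPic c ε (cut41 D) D')

/-! #### A concrete list of curves: `g` copies of the normalised Abel-Jacobi curve -/

section List

variable [IsProper c] [SmoothOfRelativeDimension 1 c]

/-- A chosen one-point family of the curve, for which Jacobi inversion holds. -/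
def jF1 (cc : CurveCharts c ε) (D : AffineDictionary cc) : ClassFamily (cut41 D) c :=
  Classical.choose (exists_F1_H41 cc D)

theorem jF1_spec (cc : CurveCharts c ε) (D : AffineDictionary cc)
    (ξ : PClass (cut41 D) (𝟙 (Spec (CommRingCat.of k)))) :
    IsProductOfPoints (groupLaw41 D) (jF1 cc D) (Genus41.genus cc) ξ :=
  Classical.choose_spec (exists_F1_H41 cc D) ξ

/-- The list of `g` copies of the normalised Abel-Jacobi curve. -/
def jList : List (CurveTo D'.toBase ((law h).one (𝟙 (Spec (CommRingCat.of k))))) :=
  List.replicate (Genus41.genus cc) (JacobiCurv.ajCurve h (jF1 cc D))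

theorem length_jList : (jList h).length = Genus41.genus cc := List.length_replicate

/-- Jacobi inversion: the sum map `C^g ⟶ J` is surjective. -/
theorem surjective_sumMap_jList [LocallyOfFiniteType D'.toBase] :
    Surjective (sumMap (law h) (jList h)) :=
  JacobiCurv.surjective_sumMap h (jF1 cc D) _ (jF1_spec cc D)

/-- Jacobi inversion: the sum map `C^g ⟶ J` is dominant. -/
theorem isDominant_sumMap_jList [LocallyOfFiniteType D'.toBase] :
    IsDominant (sumMap (law h) (jList h)) := by
  haveI := surjective_sumMap_jList h
  infer_instance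

end List

variable (hs : Smooth D'.toBase) (hp : IsProper D'.toBase)
  (hg : GeometricallyConnected D'.toBase)

include h hs hp hg in
/-- The Jacobian satisfies the hypotheses of S26. -/
theorem bundle_J : AbelianSchemePropertyBundle k D'.toBase :=
  JacobiCurv.abelianBundle (law h) hs hp hg

include h hs hp hg in
/-- The Jacobian is integral. -/
theorem isIntegral_J : IsIntegral D'.P :=
  Var81.isIntegral_of_bundle D'.toBase (bundle_J h hs hp hg)

variable [IsProper c] [SmoothOfRelativeDimension 1 c]

include hs hp hg in
/-- **SQ-J**: theorem of the square on the Jacobian, divisor form, all `k`-points. -/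
theorem exists_div_square_J [IsIntegral D'.P] (E : CaDiv D'.P) (a : Pt D') :
    ∃ h' : D'.P.functionFieldˣ,
      CaDiv.pullback (translate (law h) a) E *
          CaDiv.pullback (translate (law h) ((law h).inv (𝟙 _) a)) E =
        CaDiv.div h' * (E * E) := by
  haveI := hp
  haveI : LocallyOfFiniteType D'.toBase := inferInstance
  exact exists_div_square_of_curv (law h) (isCommutative_law h) (bundle_J h hs hp hg)
    (JacobiCurv.curvStatement_genus h) E a

include h hs hp hg in
/-- **INST-2b for the Jacobian**: `O(E · E)` is generated by finitely many functions. -/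
theorem exists_generates_sq_J [IsIntegral D'.P] (E : CaDiv D'.P) (hE : E.IsEffective) :
    ∃ (n : ℕ) (s : Fin n → D'.P.functionField), Generates s (E * E) := by
  haveI := hp
  haveI : LocallyOfFiniteType D'.toBase := inferInstance
  exact exists_generates_sq_of_curv (law h) (isCommutative_law h) (bundle_J h hs hp hg)
    (JacobiCurv.curvStatement_genus h) E hE

/-- **CUBE-J**: doubling formula up to torsion on the Jacobian, divisor form. -/
theorem exists_div_dbl_J [IsIntegral D'.P] [IsDominant ((law h).schemeNsmul 2)] :
    ∃ (l : List (CurveTo D'.toBase ((law h).one (𝟙 (Spec (CommRingCat.of k))))))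
      (_ : IsDominant (sumMap (law h) l)),
      l.length = Genus41.genus cc ∧ ∀ E : CaDiv D'.P,
        Pic38.Pic.map ((law h).inv D'.toBase RelativeGroupLaw.idPoint).1 (cl E) = cl E →
        ∃ h' : D'.P.functionFieldˣ,
          CaDiv.pullback ((law h).schemeNsmul 2) E ^
              Pic38.sumDegree (law h) (bundle_J h hs hp hg) l =
            CaDiv.div h' * E ^ (4 * Pic38.sumDegree (law h) (bundle_J h hs hp hg) l) := by
  haveI := hp
  haveI : LocallyOfFiniteType D'.toBase := inferInstance
  exact exists_div_dbl_of_curv (law h) (isCommutative_law h) (bundle_J h hs hp hg)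
    (JacobiCurv.curvStatement_genus h)

/-! #### The degree of the sum map and the inputs `hS`, `hcube` of the family assembly -/

include h hs hp hg in
/-- The degree `δ_J` of the sum map `C^g ⟶ J` (`0` if infinite; it is positive by GENFIN). -/
def deltaJ : ℕ :=
  haveI := hp
  haveI : LocallyOfFiniteType D'.toBase := inferInstance
  haveI := isDominant_sumMap_jList h
  Pic38.sumDegree (law h) (bundle_J h hs hp hg) (jList h)

include hs hp hg in
/-- **Input `hS`**: every `k`-point of the Jacobian satisfies the functorial theorem of the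
square, for every class `ℓ`. -/
theorem hS_J (ℓ : Pic38.Pic D'.P) (a : Pt D') :
    InS Fact49.PicCalcInst.picCalc38 (law h) (isCommutative_law h) ℓ (𝟙 _) a := by
  haveI := hp
  haveI : LocallyOfFiniteType D'.toBase := inferInstance
  haveI := isDominant_sumMap_jList h
  exact SquareCube.inS_Kpoint38 (law h) (isCommutative_law h) (bundle_J h hs hp hg) (jList h)
    (hrep_of_s25 _) ℓ a

/-- **Input `hcube`**: `([2]^* ℓ)^δ_J = ℓ^(δ_J · 2²)` for every symmetric class `ℓ`. -/
theorem hcube_J (ℓ : Pic38.Pic D'.P)
    (hsym : Pic38.Pic.map ((law h).inv D'.toBase RelativeGroupLaw.idPoint).1 ℓ = ℓ) :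
    Pic38.Pic.map ((law h).schemeNsmul 2) ℓ ^ deltaJ h hs hp hg =
      ℓ ^ (deltaJ h hs hp hg * 2 ^ 2) := by
  haveI := hp
  haveI : LocallyOfFiniteType D'.toBase := inferInstance
  haveI := isDominant_sumMap_jList h
  exact Pic38.pow_map_schemeNsmul_of_rep (law h) (isCommutative_law h) (bundle_J h hs hp hg)
    (jList h) (hrep_of_s25 _) ℓ hsym 2

/-- The general `[n]` version of `hcube_J`. -/
theorem hnsmul_J (ℓ : Pic38.Pic D'.P)
    (hsym : Pic38.Pic.map ((law h).inv D'.toBase RelativeGroupLaw.idPoint).1 ℓ = ℓ) (n : ℕ) :
    Pic38.Pic.map ((law h).schemeNsmul n) ℓ ^ deltaJ h hs hp hg =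
      ℓ ^ (deltaJ h hs hp hg * n ^ 2) := by
  haveI := hp
  haveI : LocallyOfFiniteType D'.toBase := inferInstance
  haveI := isDominant_sumMap_jList h
  exact Pic38.pow_map_schemeNsmul_of_rep (law h) (isCommutative_law h) (bundle_J h hs hp hg)
    (jList h) (hrep_of_s25 _) ℓ hsym n

end Jacobian

end Fermat.Agent.MW.Inst96.SquareCubeJ
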