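/-
Fermat/Agent/MW/Inst96/SquareCubeJPos.lean  (helper96, programme MW = S17, brick INST-2c
"SQ-J/CUBE-J", positivity of the degree)

`0 < deltaJ` : the degree `δ_J` of the sum map `C^g ⟶ J` of `SquareCubeJ.lean` is positive as soon
as the Jacobian is smooth of relative dimension `g = Genus41.genus cc` (brick DIMJ), by brick
GENFIN (`Box14.sumDegree_ne_zero`, helper14/helper43).  This is the input `hδ` of
`Inst49.JFamily.exists_geomFamily`.
-/
import Fermat.Agent.MW.Inst96.SquareCubeJ
import Fermat.Agent.AV.Box14.SumDegree

set_option autoImplicit false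
set_option linter.style.haveILetI false
set_option linter.unusedSectionVars false

noncomputable section

universe u

open CategoryTheory CategoryTheory.Limits AlgebraicGeometry AlgebraicGeometry.RelPicard
  NeronModelInfra GoodReductionJacobian

namespace Fermat.Agent.MW.Inst96.SquareCubeJ

open Fermat.Agent.AV Fermat.Agent.AV.Curv33
  Fermat.Agent.Jac Fermat.Agent.Jac.FinalWiring41 Fermat.Agent.AV.PicBridge84.SchemeSide

variable {k : Type u} [Field k] [IsAlgClosed k] {C : Scheme.{u}}
  {c : C ⟶ Spec (CommRingCat.of k)} [IsIntegral C]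
  {ε : SchemeHomOver (𝟙 (Spec (CommRingCat.of k))) c} {cc : CurveCharts c ε}
  {D : AffineDictionary cc} {D' : RelativePic0Designation k c}
  (h : RepresentsRelSubPic c ε (cut41 D) D')
  (hs : Smooth D'.toBase) (hp : IsProper D'.toBase) (hg : GeometricallyConnected D'.toBase)
  [IsProper c] [SmoothOfRelativeDimension 1 c]

/-- **Input `hδ`**: the degree of the sum map `C^g ⟶ J` is positive. -/
theorem deltaJ_pos [SmoothOfRelativeDimension (Genus41.genus cc) D'.toBase] :
    0 < deltaJ h hs hp hg := by
  haveI := hp
  haveI : LocallyOfFiniteType D'.toBase := inferInstance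
  haveI := isDominant_sumMap_jList h
  exact Nat.pos_of_ne_zero (Box14.sumDegree_ne_zero (law h) (bundle_J h hs hp hg)
    (Genus41.genus cc) (jList h) (length_jList h))

end Fermat.Agent.MW.Inst96.SquareCubeJ
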