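/-
Fermat/Agent/MW/Inst96/SquareCubeJFinal.lean  (helper96, programme MW = S17, brick INST-2c
"SQ-J/CUBE-J", final generic form)

For the curve with charts `cc` over an algebraically closed field and ANY designation `D'`
representing the cut `cut41 (dict41 cc)` of the S25 stack, smooth, proper, geometrically connected:

* `smoothOfRelativeDimension_J` : `D'.toBase` is smooth of relative dimension `g = Genus41.genus cc`
  (brick DIMJ `DimJ76.dimJ` for one representing object + uniqueness `RepUnique`);
* `squareCube_J` : the two Picard-form inputs of the height machine,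
  - the functorial theorem of the square at every `k`-point, for every class,
  - `∃ δ > 0`, `([2]^* ℓ)^δ = ℓ^(δ · 2²)` for every symmetric class `ℓ`.
-/
import Fermat.Agent.MW.Inst96.SquareCubeJPos
import Fermat.Agent.MW.Inst96.RepUnique
import Fermat.Agent.AV.DimJ76.Assembly
import Fermat.Agent.AV.PicBridge84.Jacobian

set_option autoImplicit false
set_option linter.style.haveILetI false
set_option linter.unusedSectionVars false

noncomputable section

universe u

open CategoryTheory CategoryTheory.Limits AlgebraicGeometry AlgebraicGeometry.RelPicard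
  NeronModelInfra GoodReductionJacobian

namespace Fermat.Agent.MW.Inst96.SquareCubeJ

open Fermat.Agent.AV Fermat.Agent.AV.Cube82 Fermat.Agent.AV.Curv33
  Fermat.Agent.Jac Fermat.Agent.Jac.FinalWiring41 Fermat.Agent.AV.PicBridge84.SchemeSide
  Fermat.Agent.MW.Inst96

variable {k : Type u} [Field k] [IsAlgClosed k] {C : Scheme.{u}}
  {c : C ⟶ Spec (CommRingCat.of k)} [IsIntegral C]
  {ε : SchemeHomOver (𝟙 (Spec (CommRingCat.of k))) c}
  [IsProper c] [SmoothOfRelativeDimension 1 c]

/-- **DIMJ for every representing object**: any designation representing the cut of the S25 stack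
is smooth of relative dimension `g`. -/
theorem smoothOfRelativeDimension_J (cc : CurveCharts c ε) {D' : RelativePic0Designation k c}
    (h : RepresentsRelSubPic c ε (cut41 (dict41 cc)) D') :
    SmoothOfRelativeDimension (Genus41.genus cc) D'.toBase := by
  obtain ⟨D'', ⟨R⟩, -, -, -, hdim⟩ := DimJ76.dimJ k c ε cc
  haveI := hdim
  exact RepUnique.smoothOfRelativeDimension_of_represents h
    (PicBridge84.Jacobian.representsCut41_of_algEquivZero cc R) _

/-- **SQ-J + CUBE-J**, with the relative dimension of the Jacobian as an instance hypothesis. -/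
theorem squareCube_J_of_dim (cc : CurveCharts c ε) {D' : RelativePic0Designation k c}
    (h : RepresentsRelSubPic c ε (cut41 (dict41 cc)) D')
    (hs : Smooth D'.toBase) (hp : IsProper D'.toBase) (hg : GeometricallyConnected D'.toBase)
    [SmoothOfRelativeDimension (Genus41.genus cc) D'.toBase] :
    (∀ (ℓ : Pic38.Pic D'.P) (a : SchemeHomOver (𝟙 (Spec (CommRingCat.of k))) D'.toBase),
        InS Fact49.PicCalcInst.picCalc38 (law h) (isCommutative_law h) ℓ (𝟙 _) a) ∧
      ∃ δ : ℕ, 0 < δ ∧ ∀ ℓ : Pic38.Pic D'.P,
        Pic38.Pic.map ((law h).inv D'.toBase RelativeGroupLaw.idPoint).1 ℓ = ℓ →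
        Pic38.Pic.map ((law h).schemeNsmul 2) ℓ ^ δ = ℓ ^ (δ * 2 ^ 2) :=
  ⟨hS_J h hs hp hg, deltaJ h hs hp hg, deltaJ_pos h hs hp hg, hcube_J h hs hp hg⟩

/-- **SQ-J + CUBE-J, final form**: the two Picard-form inputs for the Jacobian. -/
theorem squareCube_J (cc : CurveCharts c ε) {D' : RelativePic0Designation k c}
    (h : RepresentsRelSubPic c ε (cut41 (dict41 cc)) D')
    (hs : Smooth D'.toBase) (hp : IsProper D'.toBase) (hg : GeometricallyConnected D'.toBase) :
    (∀ (ℓ : Pic38.Pic D'.P) (a : SchemeHomOver (𝟙 (Spec (CommRingCat.of k))) D'.toBase),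
        InS Fact49.PicCalcInst.picCalc38 (law h) (isCommutative_law h) ℓ (𝟙 _) a) ∧
      ∃ δ : ℕ, 0 < δ ∧ ∀ ℓ : Pic38.Pic D'.P,
        Pic38.Pic.map ((law h).inv D'.toBase RelativeGroupLaw.idPoint).1 ℓ = ℓ →
        Pic38.Pic.map ((law h).schemeNsmul 2) ℓ ^ δ = ℓ ^ (δ * 2 ^ 2) := by
  haveI := smoothOfRelativeDimension_J cc h
  exact squareCube_J_of_dim cc h hs hp hg

end Fermat.Agent.MW.Inst96.SquareCubeJ
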