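/-
Fermat/Agent/MW/Inst96/SquareCubeInput.lean  (helper96, programme MW = S17, brick INST-2c
"SQ-J/CUBE-J", the contract of `MW/JDataInst73.lean`)

`squareCubeInput N M : MW.SquareCubeInput M` : the last geometric input of `MW.nonempty_jdata`,
in helper7's `JGroup` vocabulary (`lawJ M h`, `neg M h`, `dbl M h` unfold to `law h`,
`((law h).inv _ idPoint).1`, `(law h).schemeNsmul 2`).  Hence `nonempty_jdata'`.
-/
import Fermat.Agent.MW.Inst96.SquareCubeJFinal
import Fermat.Agent.MW.JDataInst73

set_option autoImplicit false
set_option linter.style.haveILetI false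
set_option linter.unusedSectionVars false

open CategoryTheory AlgebraicGeometry AlgebraicGeometry.RelPicard ModularCurve AlgebraicCurve
  NeronModelInfra GoodReductionJacobian

namespace Fermat.Agent.MW.Inst96

open Fermat.Agent.AV Fermat.Agent.AV.F1Model15 Fermat.Agent.MW

/-- **The last geometric input of `MW.nonempty_jdata`.** -/
theorem squareCubeInput (N : ℕ) [NeZero N] (M : Model QBar ↥(modularFunctionFieldBar N)) :
    SquareCubeInput M := by
  intro D' h hs hp hg hdim
  haveI := M.isIntegral
  haveI := M.isProper
  haveI := M.smooth
  exact SquareCubeJ.squareCube_J_of_dim M.cc h hs hp hg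

/-- **The concrete package exists**, unconditionally in the model `M`. -/
theorem nonempty_jdata' (N : ℕ) [NeZero N] (M : Model QBar ↥(modularFunctionFieldBar N)) :
    Nonempty (JData N M) :=
  nonempty_jdata N M (squareCubeInput N M)

end Fermat.Agent.MW.Inst96
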